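import Fermat.Agent.S59.TW.Aut.Skel

/-!
# Row S59, cell TW, layer 3 (AUT): the leaf CUSP-MIN (statement; helper959)

* `CuspMinStatement` (CUSP at the minimal level): the localisation `V₀` of `X_{Γ₀(N₀)}(𝒪)` at the
  (non-Eisenstein) maximal ideal of the package consists of cuspidal classes.

Consumers: the bridge clause of the `Plus` form (`η_{T_min}(pt) = δ₀(χ)`), through
`TW/Aut/H959/Pair.lean` (`eigen_mem`, `act_eigen`, `pair_act`, `pairing_mem_congIdeal`).
-/

set_option autoImplicit false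

open Polynomial IsLocalRing CongruenceSubgroup
open scoped MatrixGroups

namespace Fermat.Agent.S59.TW.Aut.H959

open Fermat.Agent.S59.Arch Fermat.Agent.S59.TW.H959 Fermat.Agent.S59.TW.H653
open Fermat.Agent.S59.TW.Aut
open Fermat.Agent.S29.H642 Fermat.Agent.S41.Spec

/-- **CUSP at the minimal level.**  The localisation `V₀` of `X_{Γ₀(N₀)}(𝒪)` at the maximal ideal
of the minimal package consists of cuspidal classes.
(`ρ̄` is irreducible, so there is a prime `ℓ ≡ 1` modulo `N₀` with `θ (T_ℓ) ≠ ℓ + 1`; `T_ℓ` acts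
as `ℓ + 1` on the values at the parabolic and the elliptic elements.) -/
def CuspMinStatement : Prop :=
  ∀ (p : ℕ) [Fact p.Prime]
    (𝒪 : Type) [CommRing 𝒪] [IsDomain 𝒪] [IsDiscreteValuationRing 𝒪]
    [IsAdicComplete (maximalIdeal 𝒪) 𝒪] [Finite (ResidueField 𝒪)] [CharZero 𝒪]
    (ρbar : ResidualGaloisRep (ResidueField 𝒪)) (Smin : Finset ℕ)
    (_h : ResidualHyp p 𝒪 ρbar Smin) (t : PType)
    (_ht : (t = .flat ∧ (GaloisRepAdic.ofResidualGaloisRep ρbar).IsFlatAt p) ∨
      (t = .sord ∧ (GaloisRepAdic.ofResidualGaloisRep ρbar).IsStrictOrdinaryAt p ∧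
        ¬ (GaloisRepAdic.ofResidualGaloisRep ρbar).IsFlatAt p))
    [NeZero (wilesLevel p t Smin Smin)]
    (P₀ : HeckePkg p 𝒪 ρbar t Smin Smin)
    (V₀ : Submodule 𝒪 (Additive (Gamma0 (wilesLevel p t Smin Smin)) →+ 𝒪)),
    IsMinPart P₀ V₀ → ∀ v ∈ V₀, IsCuspidal v

end Fermat.Agent.S59.TW.Aut.H959
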