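import Fermat.Agent.S59.H585.IntPDHecke

/-!
# Row S59, cell TW, layer 3 (AUT), leaf PAIR — part 1: the Manin pairing over a domain
(helper959)

`Fermat.Agent.S59.H585` proves that the Hecke operators `T_l` (`l ∤ n`) are self-adjoint for the
Manin pairing on the cuspidal classes of `Γ₀(n)` with coefficients `ℤ` (and `ℤ/m`).  Here the same
for coefficients in an arbitrary domain `R` (through the field of fractions), and the linear
functional `⟨x, ·⟩` on a submodule of cuspidal classes.
-/

set_option autoImplicit false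

namespace Fermat.Agent.S59.TW.Aut.H959

open CongruenceSubgroup Matrix.SpecialLinearGroup ModularCurve.Period ModularGroup
open Fermat.Agent.S29.H642 Fermat.Agent.S41.Spec Fermat.Agent.S59.H585
open scoped MatrixGroups

section Dom

variable {R : Type} [CommRing R] [IsDomain R] {N q : ℕ}

/-- The cast `R → Frac R` of the pairing. -/
theorem cast_pairing_dom {n : ℕ} (hn : n ≠ 0) {x y : Additive (Gamma0 n) →+ R}
    (hx : IsCuspidal x) (hy : IsCuspidal y) :
    algebraMap R (FractionRing R) (maninPairing (Gamma0 n) x y) =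
      maninPairing (Gamma0 n)
        ((algebraMap R (FractionRing R)).toAddMonoidHom.comp x)
        ((algebraMap R (FractionRing R)).toAddMonoidHom.comp y) := by
  have := finiteIndex_Gamma0' hn
  exact (maninPairing_map (neg_one_mem_Gamma0' n) (algebraMap R (FractionRing R)) hx hy).symm

/-- **Adjunction over a domain**: `B(r_i x, y) = B(x, t_i y)`. -/
theorem pairing_adj_dom (hN : N ≠ 0) (hq : q.Prime) (hqN : ¬ q ∣ N)
    (x : Additive (Gamma0 N) →+ R) (y : Additive (Gamma0 (N * q)) →+ R)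
    (hx : IsCuspidal x) (hy : IsCuspidal y) :
    maninPairing (Gamma0 (N * q)) (r₁ N q x) y = maninPairing (Gamma0 N) x (t₁ N q y) ∧
    maninPairing (Gamma0 (N * q)) (r₂ N q x) y = maninPairing (Gamma0 N) x (t₂ N q y) := by
  have hNq : N * q ≠ 0 := Nat.mul_ne_zero hN hq.ne_zero
  obtain ⟨hFun, hRC, hTC, -⟩ := Fermat.Agent.S41.H281.hkStatement.{0}
  obtain ⟨hr1, hr2⟩ := hRC N q R x hx
  obtain ⟨ht1, ht2⟩ := hTC N q R y hy
  set ι : R →+ FractionRing R := (algebraMap R (FractionRing R)).toAddMonoidHom with hι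
  have hinj : Function.Injective (algebraMap R (FractionRing R)) :=
    IsFractionRing.injective R (FractionRing R)
  have hxQ : IsCuspidal (ι.comp x) := Fermat.Agent.S41.H41.isCuspidal_comp ι hx
  have hyQ : IsCuspidal (ι.comp y) := Fermat.Agent.S41.H41.isCuspidal_comp ι hy
  obtain ⟨a1, a2⟩ := pairing_adj_field (FractionRing R) hN hq hqN (ι.comp x) (ι.comp y) hxQ hyQ
  constructor
  · apply hinj
    rw [cast_pairing_dom hNq hr1 hy, cast_pairing_dom hN hx ht1,
      ← Fermat.Agent.S41.H41.t₁_comp hFun, ← Fermat.Agent.S41.H41.r₁_comp]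
    exact a1
  · apply hinj
    rw [cast_pairing_dom hNq hr2 hy, cast_pairing_dom hN hx ht2,
      ← Fermat.Agent.S41.H41.t₂_comp hFun, ← Fermat.Agent.S41.H41.r₂_comp]
    exact a2

/-- **Hecke operators are self-adjoint over a domain.** -/
theorem pairing_hecke_dom {n l : ℕ} [Fact l.Prime] (hl : ¬ l ∣ n) (hn : n ≠ 0)
    (x y : Additive (Gamma0 n) →+ R) (hx : IsCuspidal x) (hy : IsCuspidal y) :
    maninPairing (Gamma0 n) (heckeTransfer hl x) y =
      maninPairing (Gamma0 n) x (heckeTransfer hl y) := by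
  have hlp : l.Prime := Fact.out
  have hnl : n * l ≠ 0 := Nat.mul_ne_zero hn hlp.ne_zero
  have hFI := finiteIndex_Gamma0' hn
  have hFI' := finiteIndex_Gamma0' hnl
  obtain ⟨-, hRC, -, hHC, -, -, -, hTRH, -⟩ := Fermat.Agent.S41.H281.hkStatement.{0}
  have hTx : IsCuspidal (heckeTransfer hl x) := hHC n l hl R x hx
  obtain ⟨h1x, h2x⟩ := hRC n l R x hx
  obtain ⟨h1y, h2y⟩ := hRC n l R y hy
  obtain ⟨e1x, -⟩ := hTRH n l hl hn R x
  obtain ⟨-, e2y⟩ := hTRH n l hl hn R y
  have a1 := (pairing_adj_dom hn hlp hl y (r₂ n l x) hy h2x).1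
  have a2 := (pairing_adj_dom hn hlp hl x (r₁ n l y) hx h1y).2
  calc maninPairing (Gamma0 n) (heckeTransfer hl x) y
      = - maninPairing (Gamma0 n) y (heckeTransfer hl x) :=
        maninPairing_skew (neg_one_mem_Gamma0' n) hy hTx
    _ = - maninPairing (Gamma0 n) y (t₁ n l (r₂ n l x)) := by rw [e1x]
    _ = - maninPairing (Gamma0 (n * l)) (r₁ n l y) (r₂ n l x) := by rw [a1]
    _ = maninPairing (Gamma0 (n * l)) (r₂ n l x) (r₁ n l y) := by
        rw [maninPairing_skew (neg_one_mem_Gamma0' (n * l)) h2x h1y, neg_neg]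
    _ = maninPairing (Gamma0 n) x (t₂ n l (r₁ n l y)) := a2
    _ = maninPairing (Gamma0 n) x (heckeTransfer hl y) := by rw [e2y]

/-- Cuspidality is preserved by the Hecke operators. -/
theorem isCuspidal_heckeTransfer {n l : ℕ} [Fact l.Prime] (hl : ¬ l ∣ n)
    {x : Additive (Gamma0 n) →+ R} (hx : IsCuspidal x) : IsCuspidal (heckeTransfer hl x) := by
  obtain ⟨-, -, -, hHC, -⟩ := Fermat.Agent.S41.H281.hkStatement.{0}
  exact hHC n l hl R x hx

end Dom

section Functional

variable {R : Type} [CommRing R] {n : ℕ}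

/-- The functional `v ↦ ⟨x, v⟩` on a submodule of cuspidal classes. -/
noncomputable def pairL (hn : n ≠ 0) (V : Submodule R (Additive (Gamma0 n) →+ R))
    (hV : ∀ v ∈ V, IsCuspidal v) {x : Additive (Gamma0 n) →+ R} (hx : IsCuspidal x) :
    V →ₗ[R] R where
  toFun v := maninPairing (Gamma0 n) x (v : Additive (Gamma0 n) →+ R)
  map_add' v w := by
    have := finiteIndex_Gamma0' hn
    exact maninPairing_add_right (neg_one_mem_Gamma0' n) hx (hV v v.2) (hV w w.2)
  map_smul' c v := by
    have := finiteIndex_Gamma0' hn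
    exact maninPairing_smul_right (neg_one_mem_Gamma0' n) c hx (hV v v.2)

@[simp] theorem pairL_apply (hn : n ≠ 0) (V : Submodule R (Additive (Gamma0 n) →+ R))
    (hV : ∀ v ∈ V, IsCuspidal v) {x : Additive (Gamma0 n) →+ R} (hx : IsCuspidal x) (v : V) :
    pairL hn V hV hx v = maninPairing (Gamma0 n) x (v : Additive (Gamma0 n) →+ R) := rfl

end Functional

end Fermat.Agent.S59.TW.Aut.H959
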