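import Fermat.Agent.S59.TW.Aut.Skel
import Fermat.Agent.S59.TW.Aut.H959.PairDom
import Fermat.Agent.S59.Arch.SpecRT2

/-!
# Row S59, cell TW, layer 3 (AUT), leaf PAIR — the bridge clause of the module form (helper959)

Board v4 of row S59 (`coord/S59.md`, §1): the target of the cell TW is `Arch.MinRTMStatement`, so
the automorphic module `M₀` of `TW.AutStatement` has to satisfy

  `(∃ d b, Bijective (Fintype.linearCombination T_min b)) →
      ∀ π : T_min →ₐ[𝒪] 𝒪, PairInv N_min Smin Smin (eigOf π) (η_π ^ 2)`.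

For the module of layer 3 (`M₀ = ModOf V₀ a₀`, `V₀` the localisation of `X_{Γ₀(N₀)}(𝒪)` at the
maximal ideal of the package, `TW/Aut/Spec.lean`) this is `pairInv_of_basis`:

* every eigenclass with eigenvalues `π (T_ℓ)` lies in `V₀` (`eigen_mem`: fullness of the
  localisation + Krull's intersection theorem);
* `T_min` acts on it through `π` (`act_eigen`), so its coordinates in a `T_min`-basis of `V₀` lie
  in `Ann (ker π)`;
* the Hecke operators are self-adjoint for the Manin pairing (`pairing_hecke_dom`), so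
  `⟨x, s v⟩ = π (s) ⟨x, v⟩` for an eigenclass `x` (`pair_act`);
* hence `⟨x, y⟩ = ∑ π (c_i) ⟨x, b_i⟩ ∈ π (Ann (ker π)) = η_π`.

The only input which is not proved here is the cuspidality of `V₀` (leaf CUSP of layer 3: the
localisation at a non-Eisenstein maximal ideal is cuspidal), a hypothesis of `pairInv_of_basis`.
-/

set_option autoImplicit false

open Polynomial IsLocalRing CongruenceSubgroup
open scoped MatrixGroups

namespace Fermat.Agent.S59.TW.Aut.H959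

open Fermat.Agent.S59.Arch Fermat.Agent.S59.TW.H959 Fermat.Agent.S59.TW.H653
open Fermat.Agent.S59.TW.Aut
open Fermat.Agent.S29.H642 Fermat.Agent.S41.Spec

/-! ## Points of the Hecke ring -/

section Point

variable {p : ℕ}
  {𝒪 : Type} [CommRing 𝒪] [IsDomain 𝒪] [IsDiscreteValuationRing 𝒪]
  [IsAdicComplete (maximalIdeal 𝒪) 𝒪]
  {ρbar : ResidualGaloisRep (ResidueField 𝒪)} {t : PType} {Smin Sig : Finset ℕ}
  [NeZero (wilesLevel p t Smin Sig)]
  (P : HeckePkg p 𝒪 ρbar t Smin Sig)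

/-- An `𝒪`-point of the Hecke ring maps the maximal ideal to the maximal ideal. -/
theorem point_mem_maximalIdeal (π : P.T →ₐ[𝒪] 𝒪) {s : P.T} (hs : s ∈ maximalIdeal P.T) :
    π s ∈ maximalIdeal 𝒪 := by
  have hsurj : Function.Surjective (π : P.T →+* 𝒪) := fun c =>
    ⟨algebraMap 𝒪 P.T c, by simp⟩
  have hmax : ((maximalIdeal 𝒪).comap (π : P.T →+* 𝒪)).IsMaximal :=
    Ideal.comap_isMaximal_of_surjective _ hsurj
  have h := IsLocalRing.eq_maximalIdeal hmax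
  rw [← h] at hs
  exact hs

/-- The eigenvalues of an `𝒪`-point reduce to the residual character. -/
theorem residue_point (π : P.T →ₐ[𝒪] 𝒪)
    (s : CuspForm.heckeAlgebra (wilesLevel p t Smin Sig) 2 (↑Sig : Set ℕ)) :
    residue 𝒪 (π (P.H.π s)) = P.θ s := by
  obtain ⟨c, hc⟩ := residue_surjective (P.θ s)
  have h1 := P.H.residue_π s
  rw [← hc, ResidueField.map_residue] at h1
  have h2 : P.H.π s - algebraMap 𝒪 P.T c ∈ maximalIdeal P.T := by
    rw [← residue_eq_zero_iff, map_sub, h1, sub_self]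
  have h3 := point_mem_maximalIdeal P π h2
  rw [map_sub, AlgHom.commutes, ← residue_eq_zero_iff, map_sub, sub_eq_zero] at h3
  rw [h3, ← hc]
  rfl

end Point

/-! ## Eigenclasses lie in the localisation -/

section Eigen

variable {p : ℕ} [hpF : Fact p.Prime]
  {𝒪 : Type} [CommRing 𝒪] [IsDomain 𝒪] [IsDiscreteValuationRing 𝒪]
  [IsAdicComplete (maximalIdeal 𝒪) 𝒪]
  {ρbar : ResidualGaloisRep (ResidueField 𝒪)} {t : PType} {Smin : Finset ℕ}
  [NeZero (wilesLevel p t Smin Smin)]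
  (P₀ : HeckePkg p 𝒪 ρbar t Smin Smin)
  (V₀ : Submodule 𝒪 (Additive (Gamma0 (wilesLevel p t Smin Smin)) →+ 𝒪))

/-- `x` is an eigenclass for the eigenvalues of the point `π` (no cuspidality required). -/
def IsEigen (π : P₀.T →ₐ[𝒪] 𝒪)
    (x : Additive (Gamma0 (wilesLevel p t Smin Smin)) →+ 𝒪) : Prop :=
  ∀ (l : ℕ) [Fact l.Prime] (hl : ¬ l ∣ wilesLevel p t Smin Smin), l ∉ Smin →
    heckeTransfer hl x =
      eigOf (wilesLevel p t Smin Smin) (↑Smin : Set ℕ) 𝒪 P₀.θ π l • x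

theorem IsEigenclass.isEigen {π : P₀.T →ₐ[𝒪] 𝒪} {dual : Bool}
    {x : Additive (Gamma0 (wilesLevel p t Smin Smin)) →+ 𝒪}
    (hx : IsEigenclass (wilesLevel p t Smin Smin) Smin Smin
      (eigOf (wilesLevel p t Smin Smin) (↑Smin : Set ℕ) 𝒪 P₀.θ π) dual x) :
    IsEigen P₀ π x := fun l _ hl hlS => hx.2.1 l hl hlS

omit [IsDomain 𝒪] [IsDiscreteValuationRing 𝒪] [IsAdicComplete (maximalIdeal 𝒪) 𝒪] in
theorem smul_eq_comp (c : 𝒪) {Γ : Type} [Group Γ] (x : Additive Γ →+ 𝒪) :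
    c • x = (AddMonoidHom.mulLeft c).comp x := by
  ext γ
  rfl

omit [IsDomain 𝒪] [IsDiscreteValuationRing 𝒪] [IsAdicComplete (maximalIdeal 𝒪) 𝒪] in
theorem heckeTransfer_smul' {n l : ℕ} [Fact l.Prime] (hl : ¬ l ∣ n) (c : 𝒪)
    (x : Additive (Gamma0 n) →+ 𝒪) :
    heckeTransfer hl (c • x) = c • heckeTransfer hl x := by
  rw [← TK_Gamma0 hl, ← TK_Gamma0 hl, smul_eq_comp, smul_eq_comp,
    TK_comp (isMid_Gamma0 n) hl]

omit [IsDomain 𝒪] [IsDiscreteValuationRing 𝒪] [IsAdicComplete (maximalIdeal 𝒪) 𝒪] in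
theorem heckeTransfer_sub' {n l : ℕ} [Fact l.Prime] (hl : ¬ l ∣ n)
    (x y : Additive (Gamma0 n) →+ 𝒪) :
    heckeTransfer hl (x - y) = heckeTransfer hl x - heckeTransfer hl y := by
  have h := TK_add (isMid_Gamma0 n) hl (x - y) y
  rw [sub_add_cancel, TK_Gamma0 hl, TK_Gamma0 hl, TK_Gamma0 hl] at h
  rw [h, add_sub_cancel_right]

include hpF in
/-- **Eigenclasses with eigenvalues `π (T_ℓ)` lie in the localisation `V₀`.** -/
theorem eigen_mem (hV₀ : IsMinPart P₀ V₀) (π : P₀.T →ₐ[𝒪] 𝒪)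
    {x : Additive (Gamma0 (wilesLevel p t Smin Smin)) →+ 𝒪} (hx : IsEigen P₀ π x) :
    x ∈ V₀ := by
  obtain ⟨e, he1, he2, he3, he4, -, -, hfull⟩ := hV₀.exists_proj
  obtain ⟨ϖ, hϖ⟩ := IsDiscreteValuationRing.exists_irreducible 𝒪
  have hϖ0 : ϖ ≠ 0 := hϖ.ne_zero
  have hmax : maximalIdeal 𝒪 = Ideal.span {ϖ} := hϖ.maximalIdeal_eq
  -- torsion-freeness
  have htf : ∀ z : Additive (Gamma0 (wilesLevel p t Smin Smin)) →+ 𝒪, ϖ • z = 0 → z = 0 := by
    intro z hz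
    ext γ
    have h1 : ϖ * z γ = 0 := by
      have := congrArg (fun f : Additive (Gamma0 (wilesLevel p t Smin Smin)) →+ 𝒪 => f γ) hz
      exact this
    rcases mul_eq_zero.mp h1 with h2 | h2
    · exact absurd h2 hϖ0
    · exact h2
  -- the eigenvalue equation in the vocabulary of `IsLocPart`
  have hstep : ∀ z : Additive (Gamma0 (wilesLevel p t Smin Smin)) →+ 𝒪,
      e z = 0 → IsEigen P₀ π z → ∃ z', z = ϖ • z' ∧ e z' = 0 ∧ IsEigen P₀ π z' := by
    intro z hez hz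
    have hzm : z ∈ mX (Gamma0 (wilesLevel p t Smin Smin)) 𝒪 := by
      refine hfull z hez ?_ ?_
      · intro ℓ _ c hc
        obtain ⟨hℓ, hℓN, hℓS, hres⟩ := hc
        have hℓN' : ¬ ℓ ∣ wilesLevel p t Smin Smin := hℓN
        have hℓS' : ℓ ∉ Smin := fun hm => hℓS (Finset.mem_coe.mpr hm)
        rw [TK_Gamma0 hℓN', hz ℓ hℓN' hℓS', ← sub_smul]
        refine Submodule.smul_mem_smul ?_ Submodule.mem_top
        rw [← residue_eq_zero_iff, map_sub, hres, eigOf_eq _ _ _ _ π hℓ hℓN hℓS, ← P₀.hπ,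
          residue_point P₀ π, sub_self]
      · intro q _ α hα
        exact absurd hα (Set.notMem_empty _)
    unfold mX at hzm
    rw [hmax, Submodule.ideal_span_singleton_smul] at hzm
    obtain ⟨z', -, hz'⟩ := (Submodule.mem_smul_pointwise_iff_exists _ _ _).mp hzm
    refine ⟨z', hz'.symm, ?_, ?_⟩
    · apply htf
      rw [← map_smul, hz', hez]
    · intro l _ hl hlS
      have h1 := hz l hl hlS
      rw [← hz', heckeTransfer_smul', smul_comm] at h1
      have h2 : ϖ • (heckeTransfer hl z' -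
          eigOf (wilesLevel p t Smin Smin) (↑Smin : Set ℕ) 𝒪 P₀.θ π l • z') = 0 := by
        rw [smul_sub, h1, sub_self]
      exact sub_eq_zero.mp (htf _ h2)
  have hpow : ∀ (n : ℕ) (z : Additive (Gamma0 (wilesLevel p t Smin Smin)) →+ 𝒪),
      e z = 0 → IsEigen P₀ π z → ∃ z', z = ϖ ^ n • z' := by
    intro n
    induction n with
    | zero => intro z _ _; exact ⟨z, by rw [pow_zero, one_smul]⟩
    | succ n ih =>
      intro z hez hz
      obtain ⟨z₁, h1, h2, h3⟩ := hstep z hez hz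
      obtain ⟨z₂, h4⟩ := ih z₁ h2 h3
      exact ⟨z₂, by rw [h1, h4, smul_smul, pow_succ']⟩
  -- `z = x - e x`
  have hez : e (x - e x) = 0 := by rw [map_sub, he1, sub_self]
  have hzE : IsEigen P₀ π (x - e x) := by
    intro l _ hl hlS
    have h1 := he4 l hl x
    rw [TK_Gamma0 hl, TK_Gamma0 hl, hx l hl hlS, map_smul] at h1
    rw [heckeTransfer_sub', hx l hl hlS, ← h1, smul_sub]
  have hz0 : x - e x = 0 := by
    ext γ
    have hmem : ∀ n : ℕ, (x - e x) γ ∈ maximalIdeal 𝒪 ^ n := by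
      intro n
      obtain ⟨z', hz'⟩ := hpow n _ hez hzE
      rw [hz', hmax, Ideal.span_singleton_pow]
      exact Ideal.mem_span_singleton.mpr ⟨z' γ, rfl⟩
    have hbot : (⨅ i, maximalIdeal 𝒪 ^ i) = ⊥ :=
      Ideal.iInf_pow_eq_bot_of_isLocalRing _ (maximalIdeal.isMaximal 𝒪).ne_top
    have : (x - e x) γ ∈ (⨅ i, maximalIdeal 𝒪 ^ i) := by
      rw [Ideal.mem_iInf]
      exact hmem
    rw [hbot] at this
    exact this
  rw [sub_eq_zero.mp hz0]
  exact he2 x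

end Eigen

/-! ## The action of the Hecke ring on eigenclasses and on the pairing -/

section Act

variable {p : ℕ} [hpF : Fact p.Prime]
  {𝒪 : Type} [CommRing 𝒪] [IsDomain 𝒪] [IsDiscreteValuationRing 𝒪]
  [IsAdicComplete (maximalIdeal 𝒪) 𝒪]
  {ρbar : ResidualGaloisRep (ResidueField 𝒪)} {t : PType} {Smin : Finset ℕ}
  [NeZero (wilesLevel p t Smin Smin)]
  (P₀ : HeckePkg p 𝒪 ρbar t Smin Smin)
  (V₀ : Submodule 𝒪 (Additive (Gamma0 (wilesLevel p t Smin Smin)) →+ 𝒪))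
  (a₀ : P₀.T →ₐ[𝒪] Module.End 𝒪 V₀)

include hpF in
/-- `a₀ (T_ℓ)` is the Hecke transfer. -/
theorem act_T (ha₀ : IsMinAction P₀ V₀ a₀) {ℓ : ℕ} [Fact ℓ.Prime] (hℓ : ℓ.Prime)
    (hℓN : ¬ ℓ ∣ wilesLevel p t Smin Smin) (hℓS : ℓ ∉ (↑Smin : Set ℕ)) (v : V₀) :
    ((a₀ (P₀.H.π (CuspForm.heckeAlgebra.T hℓ hℓN hℓS)) v : V₀) :
      Additive (Gamma0 (wilesLevel p t Smin Smin)) →+ 𝒪) = heckeTransfer hℓN v := by
  rw [ha₀ ℓ hℓ hℓN hℓS v, ← TK_Gamma0 hℓN]
  rfl

include hpF in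
/-- **The Hecke ring acts on an eigenclass through the point `π`.** -/
theorem act_eigen (h : ResidualHyp p 𝒪 ρbar Smin) (ha₀ : IsMinAction P₀ V₀ a₀)
    (π : P₀.T →ₐ[𝒪] 𝒪) (y : V₀)
    (hy : IsEigen P₀ π (y : Additive (Gamma0 (wilesLevel p t Smin Smin)) →+ 𝒪)) (s : P₀.T) :
    a₀ s y = π s • y := by
  refine pkg_induction P₀ (fun q hq hqN => Finset.mem_coe.mpr
    (mem_of_prime_dvd_wilesLevel hpF.out h.hSmin h.hSmin h.hpSmin (Finset.Subset.refl _)
      q hq hqN)) (fun s => a₀ s y = π s • y) ?_ ?_ ?_ ?_ s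
  · intro c
    rw [AlgHom.commutes, AlgHom.commutes]
    rfl
  · intro s s' hs hs'
    rw [map_add, LinearMap.add_apply, hs, hs', map_add, add_smul]
  · intro s s' hs hs'
    rw [map_mul, Module.End.mul_apply, hs', map_smul, hs, map_mul, smul_smul, mul_comm]
  · intro ℓ hℓ hℓN hℓS
    have : Fact ℓ.Prime := ⟨hℓ⟩
    apply Subtype.ext
    rw [act_T P₀ V₀ a₀ ha₀ hℓ hℓN hℓS y,
      hy ℓ hℓN (fun hm => hℓS (Finset.mem_coe.mpr hm)), eigOf_eq _ _ _ _ π hℓ hℓN hℓS, ← P₀.hπ]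
    rfl

include hpF in
/-- **The pairing with an eigenclass is `π`-semilinear on `V₀`.** -/
theorem pair_act (h : ResidualHyp p 𝒪 ρbar Smin) (ha₀ : IsMinAction P₀ V₀ a₀)
    (hcusp : ∀ v ∈ V₀, IsCuspidal v) (π : P₀.T →ₐ[𝒪] 𝒪)
    {x : Additive (Gamma0 (wilesLevel p t Smin Smin)) →+ 𝒪} (hxc : IsCuspidal x)
    (hx : IsEigen P₀ π x) (s : P₀.T) (v : V₀) :
    pairL (NeZero.ne _) V₀ hcusp hxc (a₀ s v) = π s * pairL (NeZero.ne _) V₀ hcusp hxc v := by
  revert v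
  refine pkg_induction P₀ (fun q hq hqN => Finset.mem_coe.mpr
    (mem_of_prime_dvd_wilesLevel hpF.out h.hSmin h.hSmin h.hpSmin (Finset.Subset.refl _)
      q hq hqN))
    (fun s => ∀ v : V₀, pairL (NeZero.ne _) V₀ hcusp hxc (a₀ s v) =
      π s * pairL (NeZero.ne _) V₀ hcusp hxc v) ?_ ?_ ?_ ?_ s
  · intro c v
    rw [AlgHom.commutes, AlgHom.commutes]
    exact (pairL (NeZero.ne _) V₀ hcusp hxc).map_smul c v
  · intro s s' hs hs' v
    rw [map_add, LinearMap.add_apply, map_add, hs, hs', map_add, add_mul]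
  · intro s s' hs hs' v
    rw [map_mul, Module.End.mul_apply, hs, hs', map_mul, mul_assoc]
  · intro ℓ hℓ hℓN hℓS v
    have : Fact ℓ.Prime := ⟨hℓ⟩
    rw [pairL_apply, pairL_apply, act_T P₀ V₀ a₀ ha₀ hℓ hℓN hℓS v,
      ← pairing_hecke_dom hℓN (NeZero.ne _) x v hxc (hcusp v v.2),
      hx ℓ hℓN (fun hm => hℓS (Finset.mem_coe.mpr hm)), eigOf_eq _ _ _ _ π hℓ hℓN hℓS, ← P₀.hπ]
    have := Fermat.Agent.S59.H585.finiteIndex_Gamma0' (NeZero.ne (wilesLevel p t Smin Smin))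
    exact Fermat.Agent.S59.H585.maninPairing_smul_left
      (Fermat.Agent.S59.H585.neg_one_mem_Gamma0' _) _ hxc (hcusp v v.2)

end Act

/-! ## The bridge clause -/

section Main

variable {p : ℕ} [hpF : Fact p.Prime]
  {𝒪 : Type} [CommRing 𝒪] [IsDomain 𝒪] [IsDiscreteValuationRing 𝒪]
  [IsAdicComplete (maximalIdeal 𝒪) 𝒪]
  {ρbar : ResidualGaloisRep (ResidueField 𝒪)} {t : PType} {Smin : Finset ℕ}
  [NeZero (wilesLevel p t Smin Smin)]
  (P₀ : HeckePkg p 𝒪 ρbar t Smin Smin)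
  (V₀ : Submodule 𝒪 (Additive (Gamma0 (wilesLevel p t Smin Smin)) →+ 𝒪))
  (a₀ : P₀.T →ₐ[𝒪] Module.End 𝒪 V₀)

include hpF in
/-- **The pairing of two eigenclasses lies in the congruence ideal**, if `V₀` is free over
`T_min`. -/
theorem pairing_mem_congIdeal (h : ResidualHyp p 𝒪 ρbar Smin) (hV₀ : IsMinPart P₀ V₀)
    (ha₀ : IsMinAction P₀ V₀ a₀) (hcusp : ∀ v ∈ V₀, IsCuspidal v)
    {d : ℕ} (b : Fin d → ModOf V₀ a₀)
    (hb : Function.Bijective (Fintype.linearCombination P₀.T b))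
    (π : P₀.T →ₐ[𝒪] 𝒪) {x y : Additive (Gamma0 (wilesLevel p t Smin Smin)) →+ 𝒪}
    (hxc : IsCuspidal x) (hx : IsEigen P₀ π x) (hy : IsEigen P₀ π y) :
    maninPairing (Gamma0 (wilesLevel p t Smin Smin)) x y ∈ NC.congIdeal π := by
  have hyV : y ∈ V₀ := eigen_mem P₀ V₀ hV₀ π hy
  set y' : V₀ := ⟨y, hyV⟩ with hy'
  obtain ⟨c, hc⟩ := hb.2 (ModOf.mk V₀ a₀ y')
  rw [Fintype.linearCombination_apply] at hc
  -- the coordinates lie in `Ann (ker π)`
  have hact : ∀ s : P₀.T, s • ModOf.mk V₀ a₀ y' = algebraMap 𝒪 P₀.T (π s) • ModOf.mk V₀ a₀ y' := by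
    intro s
    apply ModOf.val_injective
    rw [ModOf.val_smul, ModOf.val_algebraMap_smul, ModOf.val_mk]
    exact act_eigen P₀ V₀ a₀ h ha₀ π y' hy s
  have hcoord : ∀ (s : P₀.T) (i : Fin d), s * c i = algebraMap 𝒪 P₀.T (π s) * c i := by
    intro s
    have h1 : Fintype.linearCombination P₀.T b (fun i => s * c i) =
        Fintype.linearCombination P₀.T b (fun i => algebraMap 𝒪 P₀.T (π s) * c i) := by
      rw [Fintype.linearCombination_apply, Fintype.linearCombination_apply]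
      simp only [mul_smul]
      rw [← Finset.smul_sum, ← Finset.smul_sum, hc]
      exact hact s
    exact fun i => congrFun (hb.1 h1) i
  have hann : ∀ i, c i ∈ NC.annAug π := by
    intro i
    rw [NC.mem_annAug]
    intro s hs
    rw [NC.mem_augIdeal] at hs
    rw [mul_comm, hcoord s i, hs, map_zero, zero_mul]
  -- the pairing
  have hsum : (y' : V₀) = ∑ i, a₀ (c i) (ModOf.val V₀ a₀ (b i)) := by
    have h1 := congrArg (ModOf.val V₀ a₀) hc
    rw [ModOf.val_sum, ModOf.val_mk] at h1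
    rw [← h1]
    rfl
  have hpair : maninPairing (Gamma0 (wilesLevel p t Smin Smin)) x y =
      pairL (NeZero.ne _) V₀ hcusp hxc y' := rfl
  rw [hpair, hsum, map_sum]
  refine Ideal.sum_mem _ fun i _ => ?_
  rw [pair_act P₀ V₀ a₀ h ha₀ hcusp π hxc hx]
  exact Ideal.mul_mem_right _ _ (Ideal.mem_map_of_mem _ (hann i))

include hpF in
/-- **Leaf PAIR: the bridge clause of the module form**, for the module `ModOf V₀ a₀` of
layer 3. -/
theorem pairInv_of_basis (h : ResidualHyp p 𝒪 ρbar Smin) (hV₀ : IsMinPart P₀ V₀)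
    (ha₀ : IsMinAction P₀ V₀ a₀) (hcusp : ∀ v ∈ V₀, IsCuspidal v)
    (hbasis : ∃ (d : ℕ) (b : Fin d → ModOf V₀ a₀),
      Function.Bijective (Fintype.linearCombination P₀.T b))
    (π : P₀.T →ₐ[𝒪] 𝒪) :
    PairInv (wilesLevel p t Smin Smin) Smin Smin
      (eigOf (wilesLevel p t Smin Smin) (↑Smin : Set ℕ) 𝒪 P₀.θ π) (NC.congIdeal π ^ 2) := by
  obtain ⟨d, b, hb⟩ := hbasis
  intro x₁ x₂ y₁ y₂ hx₁ hx₂ hy₁ hy₂
  have key : ∀ {x y : Additive (Gamma0 (wilesLevel p t Smin Smin)) →+ 𝒪},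
      IsEigenclass (wilesLevel p t Smin Smin) Smin Smin
        (eigOf (wilesLevel p t Smin Smin) (↑Smin : Set ℕ) 𝒪 P₀.θ π) false x →
      IsEigenclass (wilesLevel p t Smin Smin) Smin Smin
        (eigOf (wilesLevel p t Smin Smin) (↑Smin : Set ℕ) 𝒪 P₀.θ π) true y →
      maninPairing (Gamma0 (wilesLevel p t Smin Smin)) x y ∈ NC.congIdeal π :=
    fun hx hy => pairing_mem_congIdeal P₀ V₀ a₀ h hV₀ ha₀ hcusp b hb π hx.1
      (IsEigenclass.isEigen P₀ hx) (IsEigenclass.isEigen P₀ hy)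
  rw [pow_two]
  exact Ideal.sub_mem _ (Ideal.mul_mem_mul (key hx₁ hy₁) (key hx₂ hy₂))
    (Ideal.mul_mem_mul (key hx₁ hy₂) (key hx₂ hy₁))

end Main

end Fermat.Agent.S59.TW.Aut.H959
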